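import Fermat.Agent.DR.Interface

set_option autoImplicit false

/-!
# Project S36 (Carayol): interface between the geometric blocks and the assembly GLUE36

Level `N = M * q` (in the application `q ∣ M`, `q² ∤ M`, i.e. `M = M' q`, `N = M' q²`), same
convention as `heckeAlphaBar Kbar M q`, `heckeBetaBar Kbar M q` : `FN M → FN (M * q)`.
On the Kummer model `V_m(F(N)) = KV Kbar (FN (M * q)) m`:

* `DR.alphaKV M q m` : `π_{A*}`, the norm `V_m(F(M q)) → V_m(F(M))` along `heckeAlphaBar Kbar M q`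
  (inclusion `f(t) ↦ f(t)`);
* `betaKV M q m`     : `π_{B*}`, the norm along `heckeBetaBar Kbar M q` (`f(t) ↦ f(t^q)`);
* `KVDegen2 M q`     : formal compatibilities of `alphaKV`, `betaKV` with `KV.red` and `heckeT`;
* `KVNewInertia M q p` : **Theorem X**: a class of `V_{p^k}(F(M q))` which is fixed by an inertia
  group at `q` and killed by `π_{A*}` and `π_{B*}` is killed by a fixed integer `d ≠ 0`
  (independent of `k`; `d` absorbs `(q² - 1)²` and the degree of the passage to a neat level).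
-/

noncomputable section

namespace Fermat.Agent.S36

open AlgebraicCurve ModularCurve Fermat.Agent.S24 Fermat.Agent.GAL Fermat.Agent.GAL.Hecke
  Fermat.Agent.DR

variable (M q : ℕ) [NeZero M] [NeZero q]

/-- The push-forward `β_*` (norm along the degeneracy map `heckeBetaBar`) on the Kummer model. -/
def betaKV (m : ℕ) : KV Kbar (FN (M * q)) m →+ KV Kbar (FN M) m :=
  KV.map (Units.map (normAlong (heckeBetaBar Kbar M q)))
    (fun _ hu => normAlong_mem_kummerUnits (heckeBetaBar Kbar M q) (finiteAlong_beta M q) hu)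

/-- **Formal compatibilities of the two push-forwards** (any `M`, `q`). -/
structure KVDegen2 : Prop where
  alpha_red : ∀ (m m' : ℕ) (h : m ∣ m') (x : KV Kbar (FN (M * q)) m'),
    KV.red h (alphaKV M q m' x) = alphaKV M q m (KV.red h x)
  alpha_hecke : ∀ (m ℓ : ℕ) [NeZero ℓ], ℓ.Prime → ¬ ℓ ∣ M * q → ∀ x : KV Kbar (FN (M * q)) m,
    alphaKV M q m (heckeT Kbar (M * q) ℓ m x) = heckeT Kbar M ℓ m (alphaKV M q m x)
  beta_red : ∀ (m m' : ℕ) (h : m ∣ m') (x : KV Kbar (FN (M * q)) m'),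
    KV.red h (betaKV M q m' x) = betaKV M q m (KV.red h x)
  beta_hecke : ∀ (m ℓ : ℕ) [NeZero ℓ], ℓ.Prime → ¬ ℓ ∣ M * q → ∀ x : KV Kbar (FN (M * q)) m,
    betaKV M q m (heckeT Kbar (M * q) ℓ m x) = heckeT Kbar M ℓ m (betaKV M q m x)

/-- **Theorem X** (Carayol): the `q`-new part of `V_{p^k}(F(M q))`, `q ∥ M`, has no inertia
invariants, up to a bounded exponent. -/
def KVNewInertia (p : ℕ) : Prop :=
  ∃ d : ℕ, d ≠ 0 ∧ ∀ (k : ℕ) (A : ValuationSubring (AlgebraicClosure ℚ)), A.LiesOverPrime q →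
    ∀ x : KV Kbar (FN (M * q)) (p ^ k), (∀ σ ∈ A.inertiaSubgroupIn ℚ, σ • x = x) →
      alphaKV M q (p ^ k) x = 0 → betaKV M q (p ^ k) x = 0 → d • x = 0

end Fermat.Agent.S36
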