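import Mathlib

set_option autoImplicit false

/-!
# S36/Glue : descent of a vector along an injective homomorphism of domains

Let `ι : R → O` be an injective homomorphism of domains and `v ≠ 0` a vector with entries in `O`.
Then there is a vector `x ≠ 0` with entries in `R` which is killed by every linear form with
coefficients in `R` killing `v` (apply a `Frac R`-linear form `Frac O → Frac R` to the entries
of `v`). In particular this applies to arbitrary (infinite) families of matrices over `R`.
-/

namespace Fermat.Agent.S36.Glue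

theorem exists_descent_field {K L : Type*} [Field K] [Field L] [Algebra K L] {n : Type*}
    [Fintype n] (v : n → L) (hv : v ≠ 0) :
    ∃ x : n → K, x ≠ 0 ∧
      ∀ a : n → K, ∑ j, algebraMap K L (a j) * v j = 0 → ∑ j, a j * x j = 0 := by
  obtain ⟨j₀, hj₀⟩ : ∃ j, v j ≠ 0 := by
    by_contra hcon
    push Not at hcon
    exact hv (funext hcon)
  obtain ⟨lam, hlam⟩ : ∃ lam : Module.Dual K L, lam (v j₀) ≠ 0 := by
    by_contra hcon
    push Not at hcon
    exact hj₀ ((Module.forall_dual_apply_eq_zero_iff K _).1 hcon)
  refine ⟨fun j => lam (v j), fun h0 => hlam (congrFun h0 j₀), fun a ha => ?_⟩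
  have h1 := congrArg lam ha
  rw [map_sum, map_zero] at h1
  rw [← h1]
  refine Finset.sum_congr rfl fun j _ => ?_
  rw [← Algebra.smul_def, map_smul, smul_eq_mul]

theorem exists_descent {R O : Type*} [CommRing R] [IsDomain R] [CommRing O] [IsDomain O]
    (ι : R →+* O) (hι : Function.Injective ι) {n : Type*} [Fintype n] (v : n → O) (hv : v ≠ 0) :
    ∃ x : n → R, x ≠ 0 ∧ ∀ a : n → R, ∑ j, ι (a j) * v j = 0 → ∑ j, a j * x j = 0 := by
  classical
  let K := FractionRing R
  let L := FractionRing O
  let f : K →+* L := IsFractionRing.map hι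
  have hf : ∀ a : R, f (algebraMap R K a) = algebraMap O L (ι a) := fun a =>
    IsLocalization.map_eq _ a
  have hinjO : Function.Injective (algebraMap O L) := IsFractionRing.injective O L
  have hinjR : Function.Injective (algebraMap R K) := IsFractionRing.injective R K
  have hv' : (fun j => algebraMap O L (v j)) ≠ 0 := by
    intro h0
    apply hv
    funext j
    apply hinjO
    rw [Pi.zero_apply, map_zero]
    exact congrFun h0 j
  obtain ⟨x, hx0, hx⟩ := @exists_descent_field K L _ _ f.toAlgebra n _ _ hv'
  obtain ⟨b, hb⟩ := IsLocalization.exist_integer_multiples_of_finite (nonZeroDivisors R) x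
  choose z hz using hb
  have hb0 : algebraMap R K (b : R) ≠ 0 := by
    intro h0
    exact nonZeroDivisors.coe_ne_zero b (hinjR (by rw [h0, map_zero]))
  refine ⟨z, ?_, fun a ha => ?_⟩
  · intro hz0
    apply hx0
    funext i
    have h1 := hz i
    rw [hz0, Pi.zero_apply, map_zero, Algebra.smul_def] at h1
    rcases mul_eq_zero.mp h1.symm with h2 | h2
    · exact absurd h2 hb0
    · exact h2
  · apply hinjR
    rw [map_sum, map_zero]
    have h1 : ∑ j, algebraMap R K (a j) * x j = 0 := by
      apply hx (fun j => algebraMap R K (a j))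
      have h2 := congrArg (algebraMap O L) ha
      rw [map_sum, map_zero] at h2
      rw [← h2]
      refine Finset.sum_congr rfl fun j _ => ?_
      rw [map_mul, ← hf]
      rfl
    calc ∑ j, algebraMap R K (a j * z j)
        = algebraMap R K (b : R) * ∑ j, algebraMap R K (a j) * x j := by
          rw [Finset.mul_sum]
          refine Finset.sum_congr rfl fun j _ => ?_
          rw [map_mul, hz, Algebra.smul_def]
          ring
      _ = 0 := by rw [h1, mul_zero]

/-- Matrix form. -/
theorem exists_descent_matrix {R O : Type*} [CommRing R] [IsDomain R] [CommRing O] [IsDomain O]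
    (ι : R →+* O) (hι : Function.Injective ι) {n : Type*} [Fintype n] (v : n → O) (hv : v ≠ 0) :
    ∃ x : n → R, x ≠ 0 ∧ ∀ (m : Type) (A : Matrix m n R), (A.map ι).mulVec v = 0 →
      A.mulVec x = 0 := by
  obtain ⟨x, hx0, hx⟩ := exists_descent ι hι v hv
  refine ⟨x, hx0, fun m A hA => ?_⟩
  funext i
  exact hx (fun j => A i j) (congrFun hA i)

end Fermat.Agent.S36.Glue
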