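import Mathlib
import Fermat.Agent.GAL.RepAlg

set_option autoImplicit false

/-!
# S36/Glue : a group of operators `u` with `u + u⁻¹ = 2` has a common fixed vector

If `r : H →* End_O(Λ)` (`Λ ≠ 0` free of finite rank over a principal ideal domain `O`) satisfies
`r h + r h⁻¹ = 2` for all `h`, then the `X_h = r h - 1` square to zero and anticommute, so
`ker X_h` is stable under `H`; induction on the rank.
-/

namespace Fermat.Agent.S36.Glue

open Fermat.Agent.GAL Fermat.Agent.GAL.RepAlg

variable {𝒪 : Type} [CommRing 𝒪] [IsDomain 𝒪] [IsPrincipalIdealRing 𝒪] [CharZero 𝒪]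
variable {H : Type} [Group H]

theorem kolchin_aux (n : ℕ) : ∀ (Λ : Type) [AddCommGroup Λ] [Module 𝒪 Λ] [Module.Free 𝒪 Λ]
    [Module.Finite 𝒪 Λ] [Nontrivial Λ] (r : H →* Module.End 𝒪 Λ)
    (_ : ∀ h, r h + r h⁻¹ = 2), Module.finrank 𝒪 Λ = n → ∃ v : Λ, v ≠ 0 ∧ ∀ h, r h v = v := by
  induction n using Nat.strong_induction_on with
  | _ n ih =>
  intro Λ _ _ _ _ _ r h2 hn
  by_cases Hall : ∀ h : H, r h = 1
  · obtain ⟨v, hv⟩ := exists_ne (0 : Λ)
    exact ⟨v, hv, fun h => by rw [Hall h, Module.End.one_apply]⟩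
  · push Not at Hall
    obtain ⟨h, hne⟩ := Hall
    have hinv : ∀ g : H, r g⁻¹ = 1 - (r g - 1) := by
      intro g
      have e := h2 g
      have : r g⁻¹ = 2 - r g := by rw [← e]; abel
      rw [this, show (2 : Module.End 𝒪 Λ) = 1 + 1 by norm_num]
      abel
    have hanti : ∀ a b : H, (r a - 1) * (r b - 1) + (r b - 1) * (r a - 1) = 0 := by
      intro a b
      have e := h2 (a * b)
      rw [mul_inv_rev, map_mul, map_mul, hinv a, hinv b] at e
      have e2 : r a * r b + (1 - (r b - 1)) * (1 - (r a - 1))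
          = 2 + ((r a - 1) * (r b - 1) + (r b - 1) * (r a - 1)) := by
        rw [show (2 : Module.End 𝒪 Λ) = 1 + 1 by norm_num]
        noncomm_ring
      rw [e2] at e
      exact left_eq_add.mp e.symm
    set Y : Module.End 𝒪 Λ := r h - 1 with hY
    have hYY : Y * Y = 0 := by
      have e := hanti h h
      rw [← hY, ← two_smul 𝒪 (Y * Y)] at e
      exact (smul_eq_zero.mp e).resolve_left two_ne_zero
    set K : Submodule 𝒪 Λ := LinearMap.ker Y with hK
    have hKst : ∀ g, ∀ x ∈ K, r g x ∈ K := by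
      intro g x hx
      rw [hK, LinearMap.mem_ker] at hx ⊢
      have e := LinearMap.congr_fun (hanti g h) x
      rw [← hY] at e
      simp only [LinearMap.add_apply, Module.End.mul_apply, LinearMap.sub_apply,
        Module.End.one_apply, hx, map_zero, sub_zero, LinearMap.zero_apply, zero_add, map_sub] at e
      exact e
    have hS : ∀ g, ∀ x ∈ sat K, r g x ∈ sat K := fun g => sat_stable (r g) (hKst g)
    have hY0 : Y ≠ 0 := by
      intro h0
      apply hne
      rw [hY, sub_eq_zero] at h0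
      exact h0
    obtain ⟨x, hx⟩ : ∃ x, Y x ≠ 0 := by
      by_contra hcon
      push Not at hcon
      exact hY0 (LinearMap.ext hcon)
    have hYx : Y x ∈ K := by
      rw [hK, LinearMap.mem_ker, ← Module.End.mul_apply, hYY, LinearMap.zero_apply]
    have : Nontrivial (sat K) :=
      ⟨⟨⟨Y x, le_sat K hYx⟩, 0, fun h0 => hx (congrArg Subtype.val h0)⟩⟩
    have hlt : Module.finrank 𝒪 (sat K) < n := by
      rw [finrank_sat, ← hn, ← Submodule.finrank_quotient_add_finrank (LinearMap.ker Y),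
        Y.quotKerEquivRange.finrank_eq]
      have : Nontrivial (LinearMap.range Y) :=
        ⟨⟨⟨Y x, LinearMap.mem_range_self Y x⟩, 0, fun h0 => hx (congrArg Subtype.val h0)⟩⟩
      have : 0 < Module.finrank 𝒪 (LinearMap.range Y) := Module.finrank_pos
      rw [hK]
      omega
    obtain ⟨v, hv0, hv⟩ := ih _ hlt (sat K) (restr r (sat K) hS) (fun g => by
      apply LinearMap.ext
      intro v
      apply Subtype.ext
      have e := LinearMap.congr_fun (h2 g) (v : Λ)
      have e2 : ((2 : Module.End 𝒪 (sat K)) v : Λ) = (2 : Module.End 𝒪 Λ) (v : Λ) := by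
        rw [show (2 : Module.End 𝒪 (sat K)) = 1 + 1 by norm_num,
          show (2 : Module.End 𝒪 Λ) = 1 + 1 by norm_num]
        rfl
      rw [e2, ← e]
      rfl) rfl
    refine ⟨(v : Λ), fun h0 => hv0 (Subtype.ext h0), fun g => ?_⟩
    exact congrArg Subtype.val (hv g)

/-- **Kolchin's theorem in the quadratic case.** -/
theorem exists_fixed_of_add_inv_eq_two {Λ : Type} [AddCommGroup Λ] [Module 𝒪 Λ] [Module.Free 𝒪 Λ]
    [Module.Finite 𝒪 Λ] [Nontrivial Λ] (r : H →* Module.End 𝒪 Λ)
    (h2 : ∀ h, r h + r h⁻¹ = 2) : ∃ v : Λ, v ≠ 0 ∧ ∀ h, r h v = v :=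
  kolchin_aux _ Λ r h2 rfl

end Fermat.Agent.S36.Glue
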