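import Fermat.Agent.S36.Glue.Datum
import Fermat.Agent.S36.Glue.Kolchin
import Fermat.Agent.S36.Glue.Descent
import Fermat.Agent.DR.S35.Newness
import Fermat.Agent.DR.S35.Core30
import Fermat.Agent.DR.S35.EigenSub
import Fermat.Agent.DR.S35.BaseChange
import Fermat.Agent.GAL.ModP.Eigen

set_option autoImplicit false

/-!
# S36/Glue : the pseudo-character of a newform of level `M q`, `q ∣ M`, is not `2` on inertia at `q`
-/

namespace Fermat.Agent.S36.Glue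

open Polynomial CuspForm CongruenceSubgroup ModularFormClass Fermat.Agent.GAL Fermat.Agent.DR

theorem zc_map {m n : Type*} {R O : Type*} [Ring R] [Ring O] (ι : R →+* O) (A : Matrix m n ℤ) :
    (zc R A).map ι = zc O A := by
  ext i j
  simp [zc]

theorem exists_inertia_trace_ne_two (hFD : FrobeniusDensity) {M q p : ℕ} [NeZero M] [NeZero q]
    [Fact p.Prime] (hq : q.Prime) (hqp : q ≠ p) (D : CarayolDatum M q p)
    {g : CuspForm (Gamma0 (M * q)) 2} (hg : g.IsNewform)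
    (O : Type) [CommRing O] [IsDomain O] [IsDiscreteValuationRing O]
    [IsAdicComplete (IsLocalRing.maximalIdeal O) O] [CharZero O]
    (hpO : (p : O) ∈ IsLocalRing.maximalIdeal O) (ι : ℤ_[p] →+* O)
    (R : Subring ℂ) (φ : R →+* O) (hφ : Function.Injective φ)
    (hR : ∀ ℓ : ℕ, ℓ.Prime → ¬ ℓ ∣ M * q → qCoeff g ℓ ∈ R)
    (a : ℕ → O) (B₀ : Finset ℕ)
    (ha : ∀ (ℓ : ℕ) (hℓ : ℓ.Prime) (hℓN : ¬ ℓ ∣ M * q), ℓ ∉ B₀ →
      a ℓ = φ ⟨qCoeff g ℓ, hR ℓ hℓ hℓN⟩)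
    (hpB : p ∈ B₀) (t : GQ → O)
    (cmp : ∀ (Λ : Type) [AddCommGroup Λ] [Module O Λ] [Module.Free O Λ] [Module.Finite O Λ]
        [Nontrivial Λ] (r : GQ →* Module.End O Λ), GaloisActionIsAdicContinuous O r →
        ∀ B : Finset ℕ,
          (∀ ℓ : ℕ, ℓ.Prime → ℓ ∉ B → ∀ A : ValuationSubring (AlgebraicClosure ℚ),
            A.LiesOverPrime ℓ → ∀ σ : GQ, A.IsFrobeniusAt σ ℓ →
              r σ * r σ - a ℓ • r σ + (ℓ : O) • (1 : Module.End O Λ) = 0) →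
          ∀ (g : GQ) (s : O), r g + ((cycloO ι g : Oˣ) : O) • r g⁻¹ = s • 1 → t g = s)
    (A : ValuationSubring (AlgebraicClosure ℚ)) (hA : A.LiesOverPrime q) :
    ∃ σ ∈ A.inertiaSubgroupIn ℚ, t σ ≠ 2 := by
  classical
  by_contra hcon
  push Not at hcon
  have hMq : M * q ≠ 0 := Nat.mul_ne_zero (NeZero.ne M) (NeZero.ne q)
  let c : ℕ → R := fun ℓ =>
    if h : ℓ.Prime ∧ ¬ ℓ ∣ M * q then ⟨qCoeff g ℓ, hR ℓ h.1 h.2⟩ else 0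
  have hc' : ∀ (ℓ : ℕ) (hℓ : ℓ.Prime) (hℓN : ¬ ℓ ∣ M * q), c ℓ = ⟨qCoeff g ℓ, hR ℓ hℓ hℓN⟩ :=
    fun ℓ hℓ hℓN => dif_pos ⟨hℓ, hℓN⟩
  have hc : ∀ ℓ : ℕ, ℓ.Prime → ¬ ℓ ∣ M * q → (c ℓ : ℂ) = qCoeff g ℓ := fun ℓ hℓ hℓN => by
    rw [hc' ℓ hℓ hℓN]
  let L : ℕ → Prop := fun ℓ => ℓ.Prime ∧ ¬ ℓ ∣ M * q
  -- an eigenvector over `O`
  have hv0 : D.per g ≠ 0 := (map_ne_zero_iff _ D.per_injective).2 hg.ne_zero
  obtain ⟨y, hy0, hy⟩ := exists_eigenvector_over L D.T D.T_comm (D.per g) hv0 R c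
    (fun ℓ hℓ => by
      rw [← D.per_T ℓ hℓ.1 hℓ.2 g, ModP.heckeTLin_eq_smul hg.1 hℓ.1 hℓ.2, map_smul, hc ℓ hℓ.1 hℓ.2]) φ
  -- the Galois action over `O`
  let AO : GQ →* Matrix (Fin D.r) (Fin D.r) O := (ι.mapMatrix : Matrix (Fin D.r) (Fin D.r) ℤ_[p] →+* Matrix (Fin D.r) (Fin D.r) O).toMonoidHom.comp D.ρ
  have hAO : ∀ σ, AO σ = (D.ρ σ).map ι := fun σ => rfl
  have hAOc : ∀ k : ℕ, ∃ F : IntermediateField ℚ (AlgebraicClosure ℚ), FiniteDimensional ℚ F ∧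
      ∀ σ : GQ, (∀ x ∈ F, σ x = x) → ∀ i j, (AO σ - 1) i j ∈ IsLocalRing.maximalIdeal O ^ k := by
    intro k
    obtain ⟨F, hF, h⟩ := D.ρ_cont k
    refine ⟨F, hF, fun σ hσ i j => ?_⟩
    obtain ⟨z, hz⟩ := h σ hσ i j
    have h1 : (AO σ - 1) i j = ι ((D.ρ σ - 1) i j) := by
      rw [hAO, Matrix.sub_apply, Matrix.sub_apply, map_sub, Matrix.map_apply]
      congr 1
      by_cases hij : i = j
      · subst hij; simp
      · simp [Matrix.one_apply_ne hij]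
    rw [h1, hz, map_mul, map_pow, map_natCast]
    exact Ideal.mul_mem_right _ _ (Ideal.pow_mem_pow hpO k)
  have hAT : ∀ σ ℓ, L ℓ → AO σ * zc O (D.T ℓ) = zc O (D.T ℓ) * AO σ := by
    intro σ ℓ hℓ
    rw [hAO, ← zc_map ι (D.T ℓ), ← Matrix.map_mul, ← Matrix.map_mul, D.ρ_T σ ℓ hℓ.1 hℓ.2]
  obtain ⟨s, Λ, _, _, _, _, _, r, j, -, hrc, hj, hjr, hjT, -⟩ :=
    exists_signed_lattice AO hAOc L (fun ℓ => zc O (D.T ℓ)) (fun ℓ => φ (c ℓ)) hAT 1 (one_mul 1)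
      (fun _ _ => by rw [one_mul, mul_one]) (fun _ => by rw [one_mul, mul_one]) y hy0 hy
  -- the Eichler-Shimura relation on `Λ`
  set B : Finset ℕ := D.bad ∪ B₀ ∪ (M * q).primeFactors with hB
  have hBmem : ∀ ℓ : ℕ, ℓ.Prime → ℓ ∉ B → ℓ ∉ D.bad ∧ ℓ ∉ B₀ ∧ ¬ ℓ ∣ M * q := by
    intro ℓ hℓ hℓB
    rw [hB, Finset.mem_union, Finset.mem_union, not_or, not_or] at hℓB
    exact ⟨hℓB.1.1, hℓB.1.2, fun h => hℓB.2 (Nat.mem_primeFactors.2 ⟨hℓ, h, hMq⟩)⟩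
  have hES : ∀ ℓ : ℕ, ℓ.Prime → ℓ ∉ B → ∀ A : ValuationSubring (AlgebraicClosure ℚ),
      A.LiesOverPrime ℓ → ∀ σ : GQ, A.IsFrobeniusAt σ ℓ →
        r σ * r σ - a ℓ • r σ + (ℓ : O) • (1 : Module.End O Λ) = 0 := by
    intro ℓ hℓ hℓB A' hA' σ hσ
    obtain ⟨h1, h2, h3⟩ := hBmem ℓ hℓ hℓB
    apply LinearMap.ext
    intro v
    apply hj
    have e1 := congrArg (fun X : Matrix (Fin D.r) (Fin D.r) ℤ_[p] => (X.map ι).mulVec (j v))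
      (D.ρ_ES ℓ hℓ h1 A' hA' σ hσ)
    have e2 : ((D.ρ σ * D.ρ σ - zc ℤ_[p] (D.T ℓ) * D.ρ σ
        + (ℓ : Matrix (Fin D.r) (Fin D.r) ℤ_[p])).map ι)
        = AO σ * AO σ - zc O (D.T ℓ) * AO σ + (ℓ : Matrix (Fin D.r) (Fin D.r) O) := by
      have := map_add ι.mapMatrix (D.ρ σ * D.ρ σ - zc ℤ_[p] (D.T ℓ) * D.ρ σ)
        (ℓ : Matrix (Fin D.r) (Fin D.r) ℤ_[p])
      rw [map_sub, map_mul, map_mul, map_natCast] at this
      rw [hAO, ← zc_map ι (D.T ℓ)]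
      exact this
    rw [e2] at e1
    have e3 : (0 : Matrix (Fin D.r) (Fin D.r) ℤ_[p]).map ι = 0 := by
      ext i k; simp
    rw [e3, Matrix.zero_mulVec, Matrix.add_mulVec, Matrix.sub_mulVec, ← Matrix.mulVec_mulVec,
      ← Matrix.mulVec_mulVec, ← hjr, ← hjr, hjT ℓ ⟨hℓ, h3⟩] at e1
    rw [LinearMap.zero_apply, map_zero, ← e1, LinearMap.add_apply, LinearMap.sub_apply,
      Module.End.mul_apply, LinearMap.smul_apply, LinearMap.smul_apply, Module.End.one_apply,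
      map_add, map_sub, map_smul, map_smul, ha ℓ hℓ h3 h2, hc' ℓ hℓ h3]
    congr 1
    rw [Matrix.natCast_mulVec]
  have hεF : ∀ ℓ : ℕ, ℓ.Prime → ℓ ∉ B → ∀ A : ValuationSubring (AlgebraicClosure ℚ),
      A.LiesOverPrime ℓ → ∀ σ : GQ, A.IsFrobeniusAt σ ℓ →
        ((cycloO ι σ : Oˣ) : O) = (ℓ : O) := by
    intro ℓ hℓ hℓB A' hA' σ hσ
    exact cycloO_frobenius ι hℓ (fun h => (hBmem ℓ hℓ hℓB).2.1 (h ▸ hpB)) A' hA' σ hσ
  -- inertia acts through operators `u` with `u + u⁻¹ = 2`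
  have h2 : ∀ σ ∈ A.inertiaSubgroupIn ℚ, r σ + r σ⁻¹ = 2 := by
    intro σ hσ
    obtain ⟨s', hs'⟩ := exists_scalar hFD r hrc (cycloO ι) (cycloO_cont ι hpO) B a hεF hES σ
    have h3 := cmp Λ r hrc B hES σ s' hs'
    rw [hcon σ hσ] at h3
    rw [cycloO_inertia ι hq hqp A hA σ hσ, Units.val_one, one_smul, ← h3] at hs'
    rw [hs', show (2 : Module.End O Λ) = 1 + 1 by norm_num, two_smul]
  obtain ⟨v, hv0', hv⟩ := exists_fixed_of_add_inv_eq_two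
    (r.comp (A.inertiaSubgroupIn ℚ).subtype) (fun h => h2 h.1 h.2)
  have hw0 : j v ≠ 0 := (map_ne_zero_iff _ hj).2 hv0'
  -- the push-forwards vanish
  have hP : ∀ P : Matrix (Fin D.r') (Fin D.r) ℤ_[p],
      (∀ ℓ : ℕ, ℓ.Prime → ¬ ℓ ∣ M * q → P * zc ℤ_[p] (D.T ℓ) = zc ℤ_[p] (D.T' ℓ) * P) →
      (P.map ι).mulVec (j v) = 0 := by
    intro P hPT
    refine eq_zero_of_isNewform hq hg D.T' D.T'_comm D.per' D.per'_T D.per'_faithful R φ hφ c hc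
      _ ?_
    intro ℓ hℓ hℓN
    rw [Matrix.mulVec_mulVec, ← zc_map ι (D.T' ℓ), ← Matrix.map_mul, ← hPT ℓ hℓ hℓN,
      Matrix.map_mul, zc_map, ← Matrix.mulVec_mulVec, hjT ℓ ⟨hℓ, hℓN⟩, Matrix.mulVec_smul]
  -- descent to `ℤ_p`
  obtain ⟨x, hx0, hx⟩ := exists_descent_matrix ι (padicInt_ringHom_injective ι) (j v) hw0
  apply hx0
  refine D.newInertia A hA x (fun σ hσ => ?_) (hx _ D.PA (hP D.PA D.PA_T))
    (hx _ D.PB (hP D.PB D.PB_T))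
  have h3 : (D.ρ σ - 1).mulVec x = 0 := by
    apply hx
    have h4 : (D.ρ σ - 1).map ι = AO σ - 1 := by
      have := map_sub (ι.mapMatrix : Matrix (Fin D.r) (Fin D.r) ℤ_[p] →+* _) (D.ρ σ) 1
      rw [map_one] at this
      exact this
    rw [h4, Matrix.sub_mulVec, Matrix.one_mulVec, ← hjr, sub_eq_zero]
    exact congrArg j (hv ⟨σ, hσ⟩)
  rw [Matrix.sub_mulVec, Matrix.one_mulVec, sub_eq_zero] at h3
  exact h3

end Fermat.Agent.S36.Glue
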