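import Fermat.Agent.DR.S35.Datum

set_option autoImplicit false

/-!
# S36/Glue : the matrix level datum consumed by the S36 assembly

`CarayolDatum M q p` (level `N = M * q`; in the application `q ∣ M`, `q² ∤ M`, `q ≠ p`): the
Eichler-Shimura datum of level `M q` (lattice `ℤ^r`, Hecke matrices `T ℓ`, period map, `p`-adic
Galois action `ρ`), the Hecke lattice `ℤ^r'` of level `M`, and over `ℤ_p` the two push-forwards
`PA = π_{A*}`, `PB = π_{B*}` to level `M`, with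

  `x` fixed by an inertia group at `q`, `PA x = 0`, `PB x = 0`  ⟹  `x = 0`.
-/

namespace Fermat.Agent.S36.Glue

open Fermat.Agent.GAL Fermat.Agent.DR CongruenceSubgroup

structure CarayolDatum (M q p : ℕ) [NeZero M] [NeZero q] [Fact p.Prime] where
  /- level `M q` -/
  r : ℕ
  T : ℕ → Matrix (Fin r) (Fin r) ℤ
  T_comm : ∀ ℓ ℓ' : ℕ, T ℓ * T ℓ' = T ℓ' * T ℓ
  per : CuspForm (Gamma0 (M * q)) 2 →ₗ[ℂ] (Fin r → ℂ)
  per_injective : Function.Injective per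
  per_T : ∀ (ℓ : ℕ) (hℓ : ℓ.Prime) (hℓN : ¬ ℓ ∣ M * q) (f : CuspForm (Gamma0 (M * q)) 2),
    per (CuspForm.heckeTLin 2 hℓ hℓN f) = (zc ℂ (T ℓ)).mulVec (per f)
  ρ : GQ →* Matrix (Fin r) (Fin r) ℤ_[p]
  ρ_T : ∀ (σ : GQ) (ℓ : ℕ), ℓ.Prime → ¬ ℓ ∣ M * q → ρ σ * zc ℤ_[p] (T ℓ) = zc ℤ_[p] (T ℓ) * ρ σ
  ρ_cont : ∀ k : ℕ, ∃ F : IntermediateField ℚ (AlgebraicClosure ℚ), FiniteDimensional ℚ F ∧
    ∀ σ : GQ, (∀ x ∈ F, σ x = x) → ∀ i j, (p : ℤ_[p]) ^ k ∣ (ρ σ - 1) i j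
  /-- the finite set of primes where the Eichler-Shimura relation is not claimed -/
  bad : Finset ℕ
  ρ_ES : ∀ ℓ : ℕ, ℓ.Prime → ℓ ∉ bad →
    ∀ A : ValuationSubring (AlgebraicClosure ℚ), A.LiesOverPrime ℓ →
      ∀ σ : GQ, A.IsFrobeniusAt σ ℓ →
        ρ σ * ρ σ - zc ℤ_[p] (T ℓ) * ρ σ + (ℓ : Matrix (Fin r) (Fin r) ℤ_[p]) = 0
  /- level `M` -/
  r' : ℕ
  T' : ℕ → Matrix (Fin r') (Fin r') ℤ
  T'_comm : ∀ ℓ ℓ' : ℕ, T' ℓ * T' ℓ' = T' ℓ' * T' ℓ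
  per' : CuspForm (Gamma0 M) 2 →ₗ[ℂ] (Fin r' → ℂ)
  per'_T : ∀ (ℓ : ℕ) (hℓ : ℓ.Prime) (hℓN : ¬ ℓ ∣ M) (f : CuspForm (Gamma0 M) 2),
    per' (CuspForm.heckeTLin 2 hℓ hℓN f) = (zc ℂ (T' ℓ)).mulVec (per' f)
  /-- the lattice of level `M` is a lattice of periods: an integral matrix killing all period
  vectors vanishes -/
  per'_faithful : ∀ t : Matrix (Fin r') (Fin r') ℤ,
    (∀ f : CuspForm (Gamma0 M) 2, (zc ℂ t).mulVec (per' f) = 0) → t = 0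
  /- degeneracy operators -/
  PA : Matrix (Fin r') (Fin r) ℤ_[p]
  PA_T : ∀ ℓ : ℕ, ℓ.Prime → ¬ ℓ ∣ M * q → PA * zc ℤ_[p] (T ℓ) = zc ℤ_[p] (T' ℓ) * PA
  PB : Matrix (Fin r') (Fin r) ℤ_[p]
  PB_T : ∀ ℓ : ℕ, ℓ.Prime → ¬ ℓ ∣ M * q → PB * zc ℤ_[p] (T ℓ) = zc ℤ_[p] (T' ℓ) * PB
  /-- **Theorem X** on the Tate module: the `q`-new part has no inertia invariants. -/
  newInertia : ∀ A : ValuationSubring (AlgebraicClosure ℚ), A.LiesOverPrime q →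
    ∀ x : Fin r → ℤ_[p], (∀ σ ∈ A.inertiaSubgroupIn ℚ, (ρ σ).mulVec x = x) →
      PA.mulVec x = 0 → PB.mulVec x = 0 → x = 0

/-- **What the geometric side of S36 has to deliver** (matrix form). -/
def CarayolInput : Prop :=
  ∀ (M q p : ℕ) [NeZero M] [NeZero q] [Fact p.Prime], q.Prime → q ∣ M → ¬ q ^ 2 ∣ M → q ≠ p →
    p ≠ 2 → Nonempty (CarayolDatum M q p)

end Fermat.Agent.S36.Glue
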