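import Fermat.Agent.GAL.GeomFinal
import Fermat.Agent.GAL.INJ.LevelDescent

set_option autoImplicit false

/-!
# S36/Glue : `KVUnramified N (4 N) p` and `KVFrobRel N (4 N) p` at an arbitrary level `N`

From INJ at the neat level `4 N` and level descent of INJ.
-/

noncomputable section

namespace Fermat.Agent.S36.Glue

open Fermat.Agent.GAL Fermat.Agent.S24

theorem inj_of_not_dvd (N p : ℕ) [NeZero N] (k ℓ : ℕ) (hℓ : ℓ.Prime) (hℓN : ¬ ℓ ∣ 4 * N * p)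
    (A : ValuationSubring Kbar) (hA : A.LiesOverPrime ℓ) : Hecke.INJ N (p ^ k) A := by
  have : NeZero (4 * N) := ⟨Nat.mul_ne_zero (by norm_num) (NeZero.ne N)⟩
  refine INJ.hecke_INJ_descent A N (4 * N) (Dvd.intro_left 4 rfl)
    (natCast_residueField_ne_zero A hℓ hA fun h => hℓN (h.mul_right p)) (p ^ k)
    (natCast_residueField_ne_zero A hℓ hA fun h => hℓN ((hℓ.dvd_of_dvd_pow h).mul_left _))
    (injAt_of_neat (4 * N) p (Or.inl (Dvd.intro N rfl)) k ℓ hℓ hℓN A hA)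

theorem exists_kvUF (N p : ℕ) [NeZero N] [Fact p.Prime] : ∃ L : ℕ, N ∣ L ∧ L ≠ 0 ∧
    KVUnramified N L p ∧ KVFrobRel N L p := by
  refine ⟨4 * N, Dvd.intro_left 4 rfl, Nat.mul_ne_zero (by norm_num) (NeZero.ne N), ?_, ?_⟩
  · intro k ℓ hℓ hℓM A hA σ hσ x
    exact Hecke.inertia_smul N (p ^ k) ℓ (pow_pos (Fact.out : p.Prime).pos k) hℓ
      (fun h => hℓM ((h.mul_left 4).mul_right p)) A hA (inj_of_not_dvd N p k ℓ hℓ hℓM A hA) σ hσ x
  · intro k ℓ _ hℓ hℓM A hA σ hσ x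
    exact Hecke.eichlerShimura N (p ^ k) ℓ (pow_pos (Fact.out : p.Prime).pos k) hℓ
      (fun h => hℓM ((h.mul_left 4).mul_right p)) A hA (inj_of_not_dvd N p k ℓ hℓ hℓM A hA) σ hσ x

end Fermat.Agent.S36.Glue
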