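import Fermat.Agent.S36.Glue.Interface
import Fermat.Agent.S36.Glue.Datum
import Fermat.Agent.DR.S35.Tower

set_option autoImplicit false

/-!
# S36/Glue : from the Kummer model to matrices

`TorsDatum (M q)`, `TorsDatum M`, `KVUnramified`, `KVFrobRel` (project GAL) and `KVDegen2 M q`,
`KVNewInertia M q p` (S36/Glue/Interface) give a `CarayolDatum M q p`.
-/

namespace Fermat.Agent.S36.Glue

open Fermat.Agent.GAL Fermat.Agent.S24 Fermat.Agent.GAL.Tors Fermat.Agent.DR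

theorem nonempty_carayolDatum {M q p L : ℕ} [NeZero M] [NeZero q] [Fact p.Prime]
    (hL : M * q ∣ L) (hL0 : L ≠ 0)
    (D : TorsDatum (M * q)) (D' : TorsDatum M)
    (hU : KVUnramified (M * q) L p) (hF : KVFrobRel (M * q) L p)
    (hdeg : KVDegen2 M q) (hnew : KVNewInertia M q p) : Nonempty (CarayolDatum M q p) := by
  classical
  obtain ⟨d, hd, hnew⟩ := hnew
  let TT := torsionTower hL D hU hF
  let e : ∀ k, (Fin D.r → ZMod (p ^ k)) ≃+ KV Kbar (FN (M * q)) (p ^ k) := fun k => D.e (p ^ k)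
  let e' : ∀ k, (Fin D'.r → ZMod (p ^ k)) ≃+ KV Kbar (FN M) (p ^ k) := fun k => D'.e (p ^ k)
  let ρ : GQ →* Matrix (Fin D.r) (Fin D.r) ℤ_[p] := TT.rho
  have hρ : ∀ (k : ℕ) (σ : GQ) (x : Fin D.r → ZMod (p ^ k)),
      e k (((ρ σ).map (PadicInt.toZModPow k)).mulVec x) = σ • e k x :=
    fun k σ x => TT.rho_spec k σ x
  obtain ⟨PA, hPA⟩ := @exists_limMat p _ D.r D'.r (TowerV (M * q) p) (TowerV M p)
    (fun _ => inferInstance) (fun _ => inferInstance) e e'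
    (fun _ _ h => KV.red (pow_dvd_pow p h)) (fun _ _ h => KV.red (pow_dvd_pow p h))
    (fun k₁ k₂ h x => D.e_red (p ^ k₁) (p ^ k₂) (pow_dvd_pow p h) x)
    (fun k₁ k₂ h x => D'.e_red (p ^ k₁) (p ^ k₂) (pow_dvd_pow p h) x)
    (fun k => alphaKV M q (p ^ k))
    (fun k₁ k₂ h x => hdeg.alpha_red (p ^ k₁) (p ^ k₂) (pow_dvd_pow p h) x)
  obtain ⟨PB, hPB⟩ := @exists_limMat p _ D.r D'.r (TowerV (M * q) p) (TowerV M p)
    (fun _ => inferInstance) (fun _ => inferInstance) e e'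
    (fun _ _ h => KV.red (pow_dvd_pow p h)) (fun _ _ h => KV.red (pow_dvd_pow p h))
    (fun k₁ k₂ h x => D.e_red (p ^ k₁) (p ^ k₂) (pow_dvd_pow p h) x)
    (fun k₁ k₂ h x => D'.e_red (p ^ k₁) (p ^ k₂) (pow_dvd_pow p h) x)
    (fun k => betaKV M q (p ^ k))
    (fun k₁ k₂ h x => hdeg.beta_red (p ^ k₁) (p ^ k₂) (pow_dvd_pow p h) x)
  have hT : ∀ (k ℓ : ℕ) [NeZero ℓ], ℓ.Prime → ¬ ℓ ∣ M * q → ∀ x : Fin D.r → ZMod (p ^ k),
      e k (((zc ℤ_[p] (D.T ℓ)).map (PadicInt.toZModPow k)).mulVec x)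
        = heckeT Kbar (M * q) ℓ (p ^ k) (e k x) := by
    intro k ℓ _ hℓ hℓN x
    rw [Tower_map_zc]
    exact D.e_T (p ^ k) ℓ hℓ hℓN x
  have hT' : ∀ (k ℓ : ℕ) [NeZero ℓ], ℓ.Prime → ¬ ℓ ∣ M → ∀ x : Fin D'.r → ZMod (p ^ k),
      e' k (((zc ℤ_[p] (D'.T ℓ)).map (PadicInt.toZModPow k)).mulVec x)
        = heckeT Kbar M ℓ (p ^ k) (e' k x) := by
    intro k ℓ _ hℓ hℓN x
    rw [Tower_map_zc]
    exact D'.e_T (p ^ k) ℓ hℓ hℓN x
  refine ⟨{
    r := D.r
    T := D.T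
    T_comm := D.T_comm
    per := D.per
    per_injective := D.per_injective
    per_T := D.per_T
    ρ := ρ
    ρ_T := ?_
    ρ_cont := TT.rho_cont
    bad := (L * p).primeFactors
    ρ_ES := ?_
    r' := D'.r
    T' := D'.T
    T'_comm := D'.T_comm
    per' := D'.per
    per'_T := D'.per_T
    per'_faithful := D'.per_faithful
    PA := PA
    PA_T := ?_
    PB := PB
    PB_T := ?_
    newInertia := ?_ }⟩
  · intro σ ℓ hℓ hℓN
    have : NeZero ℓ := ⟨hℓ.ne_zero⟩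
    rw [← sub_eq_zero]
    apply Tower_rect_eq_zero
    intro k x
    apply (e k).injective
    rw [map_zero]
    rw [Tower_map_sub, Matrix.map_mul, Matrix.map_mul, Matrix.sub_mulVec, map_sub,
      ← Matrix.mulVec_mulVec, ← Matrix.mulVec_mulVec, hρ, hT k ℓ hℓ hℓN, hT k ℓ hℓ hℓN, hρ,
      heckeT_galois_smul, sub_self]
  · intro ℓ hℓ hbad A hA σ hσ
    have hℓL : ¬ ℓ ∣ L * p := by
      intro h
      exact hbad (Nat.mem_primeFactors.2
        ⟨hℓ, h, mul_ne_zero hL0 (Fact.out : p.Prime).ne_zero⟩)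
    exact TT.rho_ES hℓ hℓL A hA σ hσ
  · intro ℓ hℓ hℓN
    have : NeZero ℓ := ⟨hℓ.ne_zero⟩
    have hℓM : ¬ ℓ ∣ M := fun h => hℓN (h.mul_right q)
    rw [← sub_eq_zero]
    apply Tower_rect_eq_zero
    intro k x
    apply (e' k).injective
    rw [map_zero]
    rw [Tower_map_sub, Matrix.map_mul, Matrix.map_mul, Matrix.sub_mulVec, map_sub,
      ← Matrix.mulVec_mulVec, ← Matrix.mulVec_mulVec, hPA, hT k ℓ hℓ hℓN, hT' k ℓ hℓ hℓM, hPA,
      hdeg.alpha_hecke _ ℓ hℓ hℓN, sub_self]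
  · intro ℓ hℓ hℓN
    have : NeZero ℓ := ⟨hℓ.ne_zero⟩
    have hℓM : ¬ ℓ ∣ M := fun h => hℓN (h.mul_right q)
    rw [← sub_eq_zero]
    apply Tower_rect_eq_zero
    intro k x
    apply (e' k).injective
    rw [map_zero]
    rw [Tower_map_sub, Matrix.map_mul, Matrix.map_mul, Matrix.sub_mulVec, map_sub,
      ← Matrix.mulVec_mulVec, ← Matrix.mulVec_mulVec, hPB, hT k ℓ hℓ hℓN, hT' k ℓ hℓ hℓM, hPB,
      hdeg.beta_hecke _ ℓ hℓ hℓN, sub_self]
  · intro A hA x hfix hx1 hx2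
    have hdx : d • x = 0 := by
      apply Tower_vec_eq_zero
      intro k
      apply (e k).injective
      rw [map_zero]
      set xk : Fin D.r → ZMod (p ^ k) := fun i => PadicInt.toZModPow k (x i) with hxk
      have h1 : (fun i => PadicInt.toZModPow k ((d • x) i)) = d • xk := by
        funext i
        simp [hxk]
      have h0 : (fun i : Fin D'.r => PadicInt.toZModPow k ((0 : Fin D'.r → ℤ_[p]) i)) = 0 := by
        funext i
        simp
      have hX1 : alphaKV M q (p ^ k) (e k xk) = 0 := by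
        rw [← hPA, hxk, ← Tower_map_mulVec, hx1, h0, map_zero]
      have hX2 : betaKV M q (p ^ k) (e k xk) = 0 := by
        rw [← hPB, hxk, ← Tower_map_mulVec, hx2, h0, map_zero]
      have hX3 : ∀ σ ∈ A.inertiaSubgroupIn ℚ, σ • e k xk = e k xk := by
        intro σ hσ
        rw [← hρ, hxk, ← Tower_map_mulVec, hfix σ hσ]
      rw [h1, map_nsmul]
      exact hnew k A hA (e k xk) hX3 hX1 hX2
    funext i
    have h2 := congrFun hdx i
    rw [Pi.smul_apply, Pi.zero_apply, nsmul_eq_mul, mul_eq_zero] at h2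
    rcases h2 with h2 | h2
    · exact absurd (Nat.cast_eq_zero.mp h2) hd
    · exact h2

/-- `CarayolInput` from the outputs of GAL and of the geometric blocks of S36. -/
theorem carayolInput_of
    (hT : ∀ (N : ℕ) [NeZero N], Nonempty (TorsDatum N))
    (hUF : ∀ (N p : ℕ) [NeZero N] [Fact p.Prime], ∃ L : ℕ, N ∣ L ∧ L ≠ 0 ∧
      KVUnramified N L p ∧ KVFrobRel N L p)
    (hdeg : ∀ (M q : ℕ) [NeZero M] [NeZero q], q.Prime → q ∣ M → KVDegen2 M q)
    (hnew : ∀ (M q p : ℕ) [NeZero M] [NeZero q], q.Prime → q ∣ M → ¬ q ^ 2 ∣ M → p.Prime →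
      q ≠ p → p ≠ 2 → KVNewInertia M q p) : CarayolInput := by
  intro M q p _ _ _ hq hqM hq2 hqp hp2
  obtain ⟨D⟩ := hT (M * q)
  obtain ⟨D'⟩ := hT M
  obtain ⟨L, hL, hL0, hU, hF⟩ := hUF (M * q) p
  exact nonempty_carayolDatum hL hL0 D D' hU hF (hdeg M q hq hqM)
    (hnew M q p hq hqM hq2 Fact.out hqp hp2)

end Fermat.Agent.S36.Glue
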