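import Fermat.Agent.S36.Glue.Main
import Fermat.Agent.S36.Glue.Tower
import Fermat.Agent.S36.Glue.GalInput
import Fermat.Agent.S36.Hecke.Degen2
import Fermat.Agent.Lib.FrobDensity.GALInterface

set_option autoImplicit false

/-!
# S36/Glue : the exact statement S36 from Theorem X (`KVNewInertia`) alone
-/

namespace Fermat.Agent.S36.Glue

open Polynomial CuspForm CongruenceSubgroup ModularFormClass Fermat.Agent.GAL Fermat.Agent.DR

/-- **Theorem X for all levels**: what is left to prove for S36. -/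
def TheoremX : Prop :=
  ∀ (M q p : ℕ) [NeZero M] [NeZero q], q.Prime → q ∣ M → ¬ q ^ 2 ∣ M → p.Prime → q ≠ p → p ≠ 2 →
    KVNewInertia M q p

/-- Theorem X in the form `N = M' q q`, `q ∤ M'`. -/
def TheoremX' : Prop :=
  ∀ (M' q p : ℕ) [NeZero M'] [NeZero q], q.Prime → ¬ q ∣ M' → p.Prime → q ≠ p → p ≠ 2 →
    KVNewInertia (M' * q) q p

theorem theoremX_of (h : TheoremX') : TheoremX := by
  intro M q p _ _ hq hqM hq2 hp hqp hp2
  obtain ⟨M', rfl⟩ : ∃ M', M = M' * q := ⟨M / q, (Nat.div_mul_cancel hqM).symm⟩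
  have : NeZero M' := ⟨fun h0 => NeZero.ne (M' * q) (by rw [h0, zero_mul])⟩
  have hqM' : ¬ q ∣ M' := fun h0 => hq2 (by rw [pow_two]; exact Nat.mul_dvd_mul h0 dvd_rfl)
  exact h M' q p hq hqM' hp hqp hp2

theorem carayolInput (hX : TheoremX) : CarayolInput :=
  carayolInput_of (fun N _ => Tors.nonempty_torsDatum' N) (fun N p _ _ => exists_kvUF N p)
    (fun _ _ _ _ hq hqM => Hecke.kvDegen2 hq hqM) hX

theorem s36_of_theoremX (hX : TheoremX)
    {M : ℕ} [NeZero M] {g : CuspForm (CongruenceSubgroup.Gamma0 M) 2} (hg : g.IsNewform)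
    (lam : ℕ) [Fact lam.Prime]
    (S : Finset ℕ)
    (O' : Type) [CommRing O'] [IsDomain O'] [IsDiscreteValuationRing O']
    [IsAdicComplete (IsLocalRing.maximalIdeal O') O'] [Finite (IsLocalRing.ResidueField O')]
    [CharZero O'] (hlamO' : (lam : O') ∈ IsLocalRing.maximalIdeal O')
    (hlam2 : lam ≠ 2)
    (chig : CuspForm.heckeAlgebra M 2 (↑S : Set ℕ) →+* ℂ)
    (hchig : ∀ (ℓ : ℕ) (hℓ : ℓ.Prime) (hℓM : ¬ ℓ ∣ M) (hℓS : ℓ ∉ (↑S : Set ℕ)),
      chig (CuspForm.heckeAlgebra.T hℓ hℓM hℓS) = ModularFormClass.qCoeff g ℓ)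
    (iota : chig.range →+* O')
    (hlamS : lam ∈ S) (hMS : ∀ q : ℕ, q.Prime → q ∣ M → q ∈ S) :
    ∃ (O'' : Type) (_ : CommRing O'') (_ : IsDomain O'') (_ : IsDiscreteValuationRing O'')
      (_ : IsAdicComplete (IsLocalRing.maximalIdeal O'') O'') (_ : Finite (IsLocalRing.ResidueField O''))
      (_ : CharZero O'') (_ : Algebra O' O'') (_ : Module.Finite O' O'') (_ : IsLocalHom (algebraMap O' O'')),
      Function.Injective (algebraMap O' O'') ∧
      ∃ ρ : GaloisRepAdic O'',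
        (∀ (ℓ : ℕ) (hℓ : ℓ.Prime) (hℓM : ¬ ℓ ∣ M) (hℓS : ℓ ∉ (↑S : Set ℕ)),
          ∀ A : ValuationSubring (AlgebraicClosure ℚ), A.LiesOverPrime ℓ →
            ∀ σ : AlgebraicClosure ℚ ≃ₐ[ℚ] AlgebraicClosure ℚ, A.IsFrobeniusAt σ ℓ →
              LinearMap.charpoly (ρ.ρ σ) =
                X ^ 2 - C (algebraMap O' O'' ((iota.comp chig.rangeRestrict) (CuspForm.heckeAlgebra.T hℓ hℓM hℓS))) * X
                  + C ((ℓ : O''))) ∧
        (∀ q : ℕ, q.Prime → q ≠ lam → M.factorization q = 2 → ¬ ρ.IsUnipotentOnInertiaAt q) :=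
  s36_of_carayolInput (carayolInput hX) geomInput
    Fermat.Agent.Lib.FrobDensity.gal_frobeniusDensity hg lam S O' hlamO' hlam2 chig hchig iota
    hlamS hMS

end Fermat.Agent.S36.Glue
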