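import Fermat.Agent.S36.Glue.Core
import Fermat.Agent.DR.S35.ExtIota
import Fermat.Agent.Lib.Frobenius
import Fermat.Prelude.Def_GaloisRep_LocalConditions

set_option autoImplicit false

/-!
# S36/Glue : the exact statement S36 from `CarayolInput`, `GeomInput` and `FrobeniusDensity`
-/

namespace Fermat.Agent.S36.Glue

open Polynomial CuspForm CongruenceSubgroup ModularFormClass Fermat.Agent.GAL Fermat.Agent.DR

/-- comparison of the linear coefficients -/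
theorem eq_two_of_charpoly {O : Type} [CommRing O] {t e : O}
    (h : (X ^ 2 - C t * X + C e : O[X]) = (X - 1) ^ 2) : t = 2 := by
  have h1 := congrArg (fun P : O[X] => P.coeff 1) h
  have h2 : ((X - 1) ^ 2 : O[X]) = X ^ 2 - C 2 * X + C 1 := by
    rw [map_ofNat, map_one]; ring
  rw [h2] at h1
  simp only [coeff_add, coeff_sub, coeff_X_pow, coeff_C_mul, coeff_X_one, coeff_C] at h1
  simpa using h1

theorem s36_of_carayolInput (hC : CarayolInput) (hG : GeomInput) (hFD : FrobeniusDensity)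
    {M : ℕ} [NeZero M] {g : CuspForm (CongruenceSubgroup.Gamma0 M) 2} (hg : g.IsNewform)
    (lam : ℕ) [Fact lam.Prime]
    (S : Finset ℕ)
    (O' : Type) [CommRing O'] [IsDomain O'] [IsDiscreteValuationRing O']
    [IsAdicComplete (IsLocalRing.maximalIdeal O') O'] [Finite (IsLocalRing.ResidueField O')]
    [CharZero O'] (hlamO' : (lam : O') ∈ IsLocalRing.maximalIdeal O')
    (hlam2 : lam ≠ 2)
    (chig : CuspForm.heckeAlgebra M 2 (↑S : Set ℕ) →+* ℂ)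
    (hchig : ∀ (ℓ : ℕ) (hℓ : ℓ.Prime) (hℓM : ¬ ℓ ∣ M) (hℓS : ℓ ∉ (↑S : Set ℕ)),
      chig (CuspForm.heckeAlgebra.T hℓ hℓM hℓS) = ModularFormClass.qCoeff g ℓ)
    (iota : chig.range →+* O')
    (hlamS : lam ∈ S) (hMS : ∀ q : ℕ, q.Prime → q ∣ M → q ∈ S) :
    ∃ (O'' : Type) (_ : CommRing O'') (_ : IsDomain O'') (_ : IsDiscreteValuationRing O'')
      (_ : IsAdicComplete (IsLocalRing.maximalIdeal O'') O'') (_ : Finite (IsLocalRing.ResidueField O''))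
      (_ : CharZero O'') (_ : Algebra O' O'') (_ : Module.Finite O' O'') (_ : IsLocalHom (algebraMap O' O'')),
      Function.Injective (algebraMap O' O'') ∧
      ∃ ρ : GaloisRepAdic O'',
        (∀ (ℓ : ℕ) (hℓ : ℓ.Prime) (hℓM : ¬ ℓ ∣ M) (hℓS : ℓ ∉ (↑S : Set ℕ)),
          ∀ A : ValuationSubring (AlgebraicClosure ℚ), A.LiesOverPrime ℓ →
            ∀ σ : AlgebraicClosure ℚ ≃ₐ[ℚ] AlgebraicClosure ℚ, A.IsFrobeniusAt σ ℓ →
              LinearMap.charpoly (ρ.ρ σ) =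
                X ^ 2 - C (algebraMap O' O'' ((iota.comp chig.rangeRestrict) (CuspForm.heckeAlgebra.T hℓ hℓM hℓS))) * X
                  + C ((ℓ : O''))) ∧
        (∀ q : ℕ, q.Prime → q ≠ lam → M.factorization q = 2 → ¬ ρ.IsUnipotentOnInertiaAt q) := by
  obtain ⟨O'', i1, i2, i3, i4, i5, i6, i7, i8, i9, hinj, R, φ, hφ, hR, hcompat⟩ :=
    exists_ext_iota hg.1 S O' chig hchig iota
  refine ⟨O'', i1, i2, i3, i4, i5, i6, i7, i8, i9, hinj, ?_⟩
  have hpO'' : (lam : O'') ∈ IsLocalRing.maximalIdeal O'' := by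
    have := map_nonunit (algebraMap O' O'') (lam : O') hlamO'
    rwa [map_natCast] at this
  obtain ⟨ι⟩ := exists_padicInt_ringHom lam O'' hpO''
  set χ : CuspForm.heckeAlgebra M 2 (↑S : Set ℕ) →+* O'' :=
    (algebraMap O' O'').comp (iota.comp chig.rangeRestrict) with hχ
  obtain ⟨ρ, t, hchar, hfrob, cmp⟩ := exists_rep_pseudo hG hFD lam M S hlamS hMS O'' hpO'' ι χ
  refine ⟨ρ, ?_, ?_⟩
  · intro ℓ hℓ hℓM hℓS A hA σ hσ
    have hℓlam : ℓ ≠ lam := fun h => hℓS (h ▸ hlamS)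
    rw [hchar σ, hfrob ℓ hℓ hℓM hℓS A hA σ hσ, cycloO_frobenius ι hℓ hℓlam A hA σ hσ]
    rfl
  · intro q hq hqlam hfac hunip
    have hM0 : M ≠ 0 := NeZero.ne M
    have h2 : q ^ 2 ∣ M := (hq.pow_dvd_iff_le_factorization hM0).2 hfac.ge
    have h3 : ¬ q ^ 3 ∣ M := fun h => by
      have := (hq.pow_dvd_iff_le_factorization hM0).1 h
      omega
    obtain ⟨M₂, hM₂⟩ := h2
    obtain ⟨M₁, hM₁⟩ : ∃ M₁, M = M₁ * q := ⟨q * M₂, by rw [hM₂]; ring⟩
    have hqM₁ : q ∣ M₁ := by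
      have h4 : M₁ * q = (q * M₂) * q := by rw [← hM₁, hM₂]; ring
      rw [Nat.eq_of_mul_eq_mul_right hq.pos h4]
      exact Dvd.intro _ rfl
    have hq2M₁ : ¬ q ^ 2 ∣ M₁ := by
      rintro ⟨e, he⟩
      exact h3 ⟨e, by rw [hM₁, he]; ring⟩
    subst hM₁
    have : NeZero M₁ := ⟨fun h => hM0 (by rw [h, zero_mul])⟩
    have : NeZero q := ⟨hq.ne_zero⟩
    obtain ⟨D⟩ := hC M₁ q lam hq hqM₁ hq2M₁ hqlam hlam2
    obtain ⟨A, hA⟩ := Fermat.Agent.Lib.Frobenius.exists_liesOverPrime (AlgebraicClosure ℚ) hq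
    obtain ⟨σ, hσ, hne⟩ := exists_inertia_trace_ne_two hFD hq hqlam D hg O'' hpO'' ι R φ hφ hR
      (eigA (↑S : Set ℕ) χ) S (fun ℓ hℓ hℓN hℓS => by
        have hℓS' : ℓ ∉ (↑S : Set ℕ) := by simpa using hℓS
        rw [eigA_eq _ χ hℓ hℓN hℓS', hcompat ℓ hℓ hℓN hℓS' (hR ℓ hℓ hℓN)]
        rfl) hlamS t cmp A hA
    apply hne
    have h5 := hunip A hA σ hσ
    rw [hchar σ] at h5
    exact eq_two_of_charpoly h5

end Fermat.Agent.S36.Glue
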